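/-
P-MW / MW-BASIC (row 678, helper88), part 1 (Mathlib only): the characteristic polynomial is
multiplicative in short exact sequences of finite-dimensional vector spaces with compatible
endomorphisms.
-/
import Mathlib

set_option autoImplicit false
set_option linter.unusedSectionVars false

noncomputable section

namespace Fermat.Agent.H88.MW

open Module

section tri

variable {k : Type*} [Field k] {A C : Type*} [AddCommGroup A] [Module k A] [Module.Finite k A]
  [AddCommGroup C] [Module k C] [Module.Finite k C]

/-- A block triangular endomorphism of `A × C`. -/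
def triEnd (α : End k A) (δ : C →ₗ[k] A) (γ : End k C) : End k (A × C) :=
  (α.comp (LinearMap.fst k A C) + δ.comp (LinearMap.snd k A C)).prod
    (γ.comp (LinearMap.snd k A C))

theorem triEnd_apply (α : End k A) (δ : C →ₗ[k] A) (γ : End k C) (x : A × C) :
    triEnd α δ γ x = (α x.1 + δ x.2, γ x.2) := rfl

theorem charpoly_triEnd (α : End k A) (δ : C →ₗ[k] A) (γ : End k C) :
    (triEnd α δ γ).charpoly = α.charpoly * γ.charpoly := by
  classical
  let b₁ := Module.Free.chooseBasis k A
  let b₂ := Module.Free.chooseBasis k C
  rw [← LinearMap.charpoly_toMatrix α b₁, ← LinearMap.charpoly_toMatrix γ b₂,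
    ← LinearMap.charpoly_toMatrix (triEnd α δ γ) (b₁.prod b₂)]
  have h : LinearMap.toMatrix (b₁.prod b₂) (b₁.prod b₂) (triEnd α δ γ)
      = Matrix.fromBlocks (LinearMap.toMatrix b₁ b₁ α) (LinearMap.toMatrix b₂ b₁ δ) 0
          (LinearMap.toMatrix b₂ b₂ γ) := by
    ext (i | i) (j | j) <;> simp [LinearMap.toMatrix, triEnd_apply]
  rw [h, Matrix.charpoly_fromBlocks_zero₂₁]

end tri

section exact

variable {k : Type*} [Field k] {A B C : Type*} [AddCommGroup A] [Module k A] [Module.Finite k A]
  [AddCommGroup B] [Module k B] [Module.Finite k B]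
  [AddCommGroup C] [Module k C] [Module.Finite k C]

/-- **The characteristic polynomial is multiplicative in short exact sequences.** -/
theorem charpoly_of_exact (i : A →ₗ[k] B) (p : B →ₗ[k] C) (hi : Function.Injective i)
    (hp : Function.Surjective p) (hex : LinearMap.range i = LinearMap.ker p)
    (α : End k A) (β : End k B) (γ : End k C) (hα : ∀ a, β (i a) = i (α a))
    (hγ : ∀ b, p (β b) = γ (p b)) : β.charpoly = α.charpoly * γ.charpoly := by
  classical
  obtain ⟨s, hs⟩ := p.exists_rightInverse_of_surjective (LinearMap.range_eq_top.mpr hp)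
  have hps : ∀ c, p (s c) = c := fun c => congrArg (fun f : C →ₗ[k] C => f c) hs
  have hpi : ∀ a, p (i a) = 0 := fun a => by
    have : i a ∈ LinearMap.ker p := by rw [← hex]; exact ⟨a, rfl⟩
    exact this
  -- the splitting
  have hinj : Function.Injective (i.coprod s) := by
    rw [← LinearMap.ker_eq_bot, LinearMap.ker_eq_bot']
    rintro ⟨a, c⟩ h
    rw [LinearMap.coprod_apply] at h
    have hc : c = 0 := by
      have := congrArg p h
      rwa [map_add, hpi, hps, zero_add, map_zero] at this
    rw [hc, map_zero, add_zero] at h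
    have ha : a = 0 := hi (by rw [h, map_zero])
    rw [ha, hc]; rfl
  have hsurj : Function.Surjective (i.coprod s) := by
    intro b
    have hb : b - s (p b) ∈ LinearMap.range i := by
      rw [hex, LinearMap.mem_ker, map_sub, hps, sub_self]
    obtain ⟨a, ha⟩ := hb
    refine ⟨(a, p b), ?_⟩
    rw [LinearMap.coprod_apply, ha]
    abel
  let e : (A × C) ≃ₗ[k] B := LinearEquiv.ofBijective (i.coprod s) ⟨hinj, hsurj⟩
  have he : ∀ x : A × C, e x = i x.1 + s x.2 := fun x => rfl
  have hsnd : ∀ b, (e.symm b).2 = p b := by
    intro b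
    obtain ⟨x, rfl⟩ := e.surjective b
    rw [e.symm_apply_apply, he, map_add, hpi, hps, zero_add]
  -- the off-diagonal block
  let δ : C →ₗ[k] A := (LinearMap.fst k A C).comp ((e.symm : B →ₗ[k] A × C).comp (β.comp s))
  have hconj : e.conj (triEnd α δ γ) = β := by
    apply LinearMap.ext
    intro b
    obtain ⟨x, rfl⟩ := e.surjective b
    rw [LinearEquiv.conj_apply_apply, e.symm_apply_apply, triEnd_apply]
    -- compare in `A × C`
    apply e.symm.injective
    rw [e.symm_apply_apply]
    have h1 : e.symm (β (e x)) = e.symm (β (i x.1)) + e.symm (β (s x.2)) := by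
      rw [he, map_add, map_add]
    have h2 : e.symm (β (i x.1)) = (α x.1, 0) := by
      rw [hα]
      apply e.injective
      rw [e.apply_symm_apply, he]
      simp
    have h3 : e.symm (β (s x.2)) = (δ x.2, γ x.2) := by
      apply Prod.ext
      · rfl
      · rw [hsnd, hγ, hps]
    rw [h1, h2, h3]
    simp
  rw [← hconj, LinearEquiv.charpoly_conj, charpoly_triEnd]

end exact

end Fermat.Agent.H88.MW

end
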