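/-
P-MW / MW-BASIC (row 678, helper88), part 2: the purely algebraic parts of `BasicStatement`:
finiteness of `R ⧸ I`, multiplicativity of `tCharpoly`, additivity of the degree.
-/
import Fermat.Agent.H92.MW.BasicInterfaces
import Fermat.Agent.H88.MW.Charpoly

set_option autoImplicit false
set_option linter.unusedSectionVars false
set_option linter.style.haveILetI false

noncomputable section

open Module TensorProduct

namespace Fermat.Agent.H88.MW

open Fermat.Agent.H92.MW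

variable {R : Type} [CommRing R] [Algebra ℚ R] [IsDedekindDomain R]

/-- (B1) `R ⧸ I` is finite-dimensional over `ℚ` for `I ≠ ⊥`. -/
theorem finite_quotient (𝒞 : MWDatum R) (I : Ideal R) (hI : I ≠ ⊥) :
    Module.Finite ℚ (R ⧸ I) := by
  haveI := 𝒞.finiteType
  haveI : Algebra.FiniteType ℚ (R ⧸ I) :=
    Algebra.FiniteType.of_surjective (Ideal.Quotient.mkₐ ℚ I) (Ideal.Quotient.mkₐ_surjective ℚ I)
  have h : Ring.KrullDimLE 0 (R ⧸ I) := by
    rw [Ideal.krullDimLE_zero_quotient_iff_forall_minimalPrimes_isMaximal]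
    intro J hJ
    have hJp : J.IsPrime := hJ.1.1
    have hIJ : I ≤ J := hJ.1.2
    exact hJp.isMaximal (fun h => hI (by rw [h] at hIJ; exact le_bot_iff.mp hIJ))
  exact (Module.finite_iff_krullDimLE_zero ℚ (R ⧸ I)).mpr h

/-- Ideal arithmetic: if `I = I J + (a)` then `a x ∈ I J` implies `x ∈ J`. -/
theorem mem_of_mul_mem {I J : Ideal R} (hI : I ≠ ⊥) {a : R}
    (ha : I * J ⊔ Ideal.span {a} = I) {x : R} (hx : a * x ∈ I * J) : x ∈ J := by
  have hA : Ideal.span {a} ≤ I := by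
    conv_rhs => rw [← ha]
    exact le_sup_right
  obtain ⟨E, hE⟩ : I ∣ Ideal.span {a} := Ideal.dvd_iff_le.mpr hA
  have hEJ : J ⊔ E = ⊤ := by
    have h1 : I * (J ⊔ E) = I * ⊤ := by
      rw [Ideal.mul_sup, ← hE, ha, Ideal.mul_top]
    exact mul_left_cancel₀ hI h1
  have h1 : Ideal.span {a} * Ideal.span {x} ≤ I * J := by
    rw [Ideal.span_singleton_mul_span_singleton, Ideal.span_singleton_le_iff_mem]
    exact hx
  rw [hE, mul_assoc] at h1
  have h2 : E * Ideal.span {x} ≤ J := by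
    rw [← Ideal.dvd_iff_le] at h1 ⊢
    exact (mul_dvd_mul_iff_left hI).mp h1
  have h3 : Ideal.span {x} ≤ J := by
    calc Ideal.span {x} = Ideal.span {x} * (J ⊔ E) := by rw [hEJ, Ideal.mul_top]
      _ = Ideal.span {x} * J ⊔ Ideal.span {x} * E := Ideal.mul_sup _ _ _
      _ ≤ J := sup_le Ideal.mul_le_right (by rw [mul_comm]; exact h2)
  exact (Ideal.span_singleton_le_iff_mem J).mp h3

/-- multiplication by `t` on `R ⧸ I` -/
def tEnd (𝒞 : MWDatum R) (I : Ideal R) : End ℚ (R ⧸ I) :=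
  LinearMap.mulLeft ℚ (Ideal.Quotient.mk I 𝒞.t)

theorem tEnd_mk (𝒞 : MWDatum R) (I : Ideal R) (x : R) :
    tEnd 𝒞 I (Ideal.Quotient.mk I x) = Ideal.Quotient.mk I (𝒞.t * x) := by
  rw [tEnd, LinearMap.mulLeft_apply, ← map_mul]

theorem tCharpoly_eq (𝒞 : MWDatum R) (I : Ideal R) [h : Module.Finite ℚ (R ⧸ I)] :
    𝒞.tCharpoly I = (tEnd 𝒞 I).charpoly := by
  rw [MWDatum.tCharpoly, dif_pos h]
  rfl

theorem natDegree_tCharpoly (𝒞 : MWDatum R) (I : Ideal R) (hI : I ≠ ⊥) :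
    (𝒞.tCharpoly I).natDegree = 𝒞.deg I := by
  haveI := finite_quotient 𝒞 I hI
  rw [tCharpoly_eq, LinearMap.charpoly_natDegree]
  rfl

theorem monic_tCharpoly (𝒞 : MWDatum R) (I : Ideal R) (hI : I ≠ ⊥) :
    (𝒞.tCharpoly I).Monic := by
  haveI := finite_quotient 𝒞 I hI
  rw [tCharpoly_eq]
  exact LinearMap.charpoly_monic _

/-- (B6) `tCharpoly` is multiplicative. -/
theorem tCharpoly_mul (𝒞 : MWDatum R) (I J : Ideal R) (hI : I ≠ ⊥) (hJ : J ≠ ⊥) :
    𝒞.tCharpoly (I * J) = 𝒞.tCharpoly I * 𝒞.tCharpoly J := by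
  have hIJ : I * J ≠ ⊥ := mul_ne_zero hI hJ
  haveI := finite_quotient 𝒞 I hI
  haveI := finite_quotient 𝒞 J hJ
  haveI := finite_quotient 𝒞 (I * J) hIJ
  obtain ⟨a, ha⟩ := IsDedekindDomain.exists_sup_span_eq (Ideal.mul_le_left : I * J ≤ I) hIJ
  have haI : a ∈ I := by
    have : Ideal.span {a} ≤ I := by
      conv_rhs => rw [← ha]
      exact le_sup_right
    exact (Ideal.span_singleton_le_iff_mem I).mp this
  -- the maps
  have hle : J ≤ Submodule.comap (LinearMap.mulLeft R a) (I * J) := by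
    intro x hx
    show a * x ∈ I * J
    exact Ideal.mul_mem_mul haI hx
  let i : (R ⧸ J) →ₗ[ℚ] (R ⧸ (I * J)) :=
    (Submodule.mapQ J (I * J) (LinearMap.mulLeft R a) hle).restrictScalars ℚ
  have hle' : I * J ≤ Submodule.comap (LinearMap.id : R →ₗ[R] R) I := by
    intro x hx
    exact Ideal.mul_le_left hx
  let p : (R ⧸ (I * J)) →ₗ[ℚ] (R ⧸ I) :=
    (Submodule.mapQ (I * J) I (LinearMap.id : R →ₗ[R] R) hle').restrictScalars ℚ
  have hi_mk : ∀ x : R, i (Ideal.Quotient.mk J x) = Ideal.Quotient.mk (I * J) (a * x) :=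
    fun x => rfl
  have hp_mk : ∀ x : R, p (Ideal.Quotient.mk (I * J) x) = Ideal.Quotient.mk I x :=
    fun x => rfl
  have hinj : Function.Injective i := by
    rw [← LinearMap.ker_eq_bot, LinearMap.ker_eq_bot']
    intro y hy
    obtain ⟨x, rfl⟩ := Ideal.Quotient.mk_surjective y
    rw [hi_mk, Ideal.Quotient.eq_zero_iff_mem] at hy
    rw [Ideal.Quotient.eq_zero_iff_mem]
    exact mem_of_mul_mem hI ha hy
  have hsurj : Function.Surjective p := by
    intro y
    obtain ⟨x, rfl⟩ := Ideal.Quotient.mk_surjective y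
    exact ⟨Ideal.Quotient.mk (I * J) x, hp_mk x⟩
  have hex : LinearMap.range i = LinearMap.ker p := by
    ext y
    obtain ⟨r, rfl⟩ := Ideal.Quotient.mk_surjective y
    rw [LinearMap.mem_ker, hp_mk, Ideal.Quotient.eq_zero_iff_mem]
    constructor
    · rintro ⟨z, hz⟩
      obtain ⟨x, rfl⟩ := Ideal.Quotient.mk_surjective z
      rw [hi_mk, Ideal.Quotient.eq] at hz
      have h1 : a * x ∈ I := I.mul_mem_right x haI
      have h2 : a * x - r ∈ I := Ideal.mul_le_left hz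
      have : r = a * x - (a * x - r) := by ring
      rw [this]
      exact I.sub_mem h1 h2
    · intro hr
      rw [← ha] at hr
      obtain ⟨u, hu, v, hv, rfl⟩ := Submodule.mem_sup.mp hr
      obtain ⟨x, rfl⟩ := Ideal.mem_span_singleton'.mp hv
      refine ⟨Ideal.Quotient.mk J x, ?_⟩
      rw [hi_mk, Ideal.Quotient.eq]
      have : a * x - (u + x * a) = -u := by ring
      rw [this]
      exact (I * J).neg_mem hu
  have hα : ∀ y, tEnd 𝒞 (I * J) (i y) = i (tEnd 𝒞 J y) := by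
    intro y
    obtain ⟨x, rfl⟩ := Ideal.Quotient.mk_surjective y
    rw [hi_mk, tEnd_mk, tEnd_mk, hi_mk]
    congr 1
    ring
  have hγ : ∀ y, p (tEnd 𝒞 (I * J) y) = tEnd 𝒞 I (p y) := by
    intro y
    obtain ⟨x, rfl⟩ := Ideal.Quotient.mk_surjective y
    rw [tEnd_mk, hp_mk, hp_mk, tEnd_mk]
  have h := charpoly_of_exact i p hinj hsurj hex (tEnd 𝒞 J) (tEnd 𝒞 (I * J)) (tEnd 𝒞 I) hα hγ
  rw [tCharpoly_eq, tCharpoly_eq, tCharpoly_eq, h, mul_comm]

/-- (B5) the degree is additive. -/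
theorem deg_mul (𝒞 : MWDatum R) (I J : Ideal R) (hI : I ≠ ⊥) (hJ : J ≠ ⊥) :
    𝒞.deg (I * J) = 𝒞.deg I + 𝒞.deg J := by
  have hIJ : I * J ≠ ⊥ := mul_ne_zero hI hJ
  rw [← natDegree_tCharpoly 𝒞 (I * J) hIJ, tCharpoly_mul 𝒞 I J hI hJ,
    (monic_tCharpoly 𝒞 I hI).natDegree_mul (monic_tCharpoly 𝒞 J hJ),
    natDegree_tCharpoly 𝒞 I hI, natDegree_tCharpoly 𝒞 J hJ]

end Fermat.Agent.H88.MW

end
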