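/-
P-MW / MW-BASIC (row 678, helper88), part 3: descent from `ℚ̄` to `ℚ`: a `ℚ`-linear retraction
`ℚ̄ ⊗ R → R`, Riemann-Roch over `ℚ`, the pole order is a valuation, degree of a principal ideal.
-/
import Fermat.Agent.H92.MW.BasicInterfaces
import Fermat.Agent.H88.MW.BasicAlg

set_option autoImplicit false
set_option linter.unusedSectionVars false
set_option linter.style.haveILetI false

noncomputable section

open Module TensorProduct

namespace Fermat.Agent.H88.MW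

open Fermat.Agent.H92.MW

variable {R : Type} [CommRing R] [Algebra ℚ R] [IsDedekindDomain R]

/-! ### The retraction -/

/-- A `ℚ`-linear functional on `ℚ̄` with value `1` at `1`. -/
theorem exists_functional : ∃ lam : QQbar →ₗ[ℚ] ℚ, lam 1 = 1 := by
  obtain ⟨g, hg⟩ := LinearMap.exists_leftInverse_of_injective (Algebra.linearMap ℚ QQbar)
    (LinearMap.ker_eq_bot.mpr (algebraMap ℚ QQbar).injective)
  refine ⟨g, ?_⟩
  have := congrArg (fun f : ℚ →ₗ[ℚ] ℚ => f 1) hg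
  simpa using this

/-- the functional -/
def lamQ : QQbar →ₗ[ℚ] ℚ := Classical.choose exists_functional

theorem lamQ_one : lamQ 1 = 1 := Classical.choose_spec exists_functional

/-- The `ℚ`-linear retraction `ℚ̄ ⊗ R → R`. -/
def retr (R : Type) [CommRing R] [Algebra ℚ R] : QQbar ⊗[ℚ] R →ₗ[ℚ] R :=
  (TensorProduct.lid ℚ R).toLinearMap ∘ₗ (LinearMap.rTensor R lamQ)

theorem retr_tmul (c : QQbar) (r : R) : retr R (c ⊗ₜ[ℚ] r) = lamQ c • r := by
  simp [retr]

theorem retr_one_tmul (r : R) : retr R ((1 : QQbar) ⊗ₜ[ℚ] r) = r := by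
  rw [retr_tmul, lamQ_one, one_smul]

/-- the retraction maps the base change of a subspace into the subspace -/
theorem retr_mem_of_mem_baseChange (p : Submodule ℚ R) {x : QQbar ⊗[ℚ] R}
    (hx : x ∈ p.baseChange QQbar) : retr R x ∈ p := by
  obtain ⟨y, rfl⟩ := hx
  induction y using TensorProduct.induction_on with
  | zero => simp
  | tmul c w =>
    rw [LinearMap.baseChange_tmul, retr_tmul]
    exact p.smul_mem _ w.2
  | add a b ha hb =>
    rw [map_add, map_add]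
    exact p.add_mem ha hb

theorem one_tmul_mem_baseChange_iff (p : Submodule ℚ R) (r : R) :
    (1 : QQbar) ⊗ₜ[ℚ] r ∈ p.baseChange QQbar ↔ r ∈ p := by
  constructor
  · intro h
    have := retr_mem_of_mem_baseChange p h
    rwa [retr_one_tmul] at this
  · intro h
    exact Submodule.tmul_mem_baseChange_of_mem 1 h

/-- the extension of an ideal to `ℚ̄ ⊗ R` -/
def barIdeal (I : Ideal R) : Ideal (QQbar ⊗[ℚ] R) :=
  I.map (Algebra.TensorProduct.includeRight : R →ₐ[ℚ] QQbar ⊗[ℚ] R)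

theorem one_tmul_mem_barIdeal {I : Ideal R} {r : R} (hr : r ∈ I) :
    (1 : QQbar) ⊗ₜ[ℚ] r ∈ barIdeal I :=
  Ideal.mem_map_of_mem _ hr

theorem retr_mul_one_tmul_mem (I : Ideal R) {r : R} (hr : r ∈ I) (y : QQbar ⊗[ℚ] R) :
    retr R (y * ((1 : QQbar) ⊗ₜ[ℚ] r)) ∈ I := by
  induction y using TensorProduct.induction_on with
  | zero => simp
  | tmul c s =>
    rw [Algebra.TensorProduct.tmul_mul_tmul, retr_tmul, mul_one, Algebra.smul_def]
    exact I.mul_mem_left _ (I.mul_mem_left _ hr)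
  | add a b ha hb =>
    rw [add_mul, map_add]
    exact I.add_mem ha hb

/-- the retraction maps the extended ideal into the ideal -/
theorem retr_mem_of_mem_barIdeal (I : Ideal R) {x : QQbar ⊗[ℚ] R} (hx : x ∈ barIdeal I) :
    retr R x ∈ I := by
  have key : ∀ y : QQbar ⊗[ℚ] R, retr R (y * x) ∈ I := by
    unfold barIdeal at hx
    rw [Ideal.map] at hx
    induction hx using Submodule.span_induction with
    | mem z hz =>
      obtain ⟨r, hr, rfl⟩ := hz
      intro y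
      exact retr_mul_one_tmul_mem I hr y
    | zero => intro y; simp
    | add a b _ _ ha hb =>
      intro y
      rw [mul_add, map_add]
      exact I.add_mem (ha y) (hb y)
    | smul c a _ ha =>
      intro y
      rw [smul_eq_mul, ← mul_assoc]
      exact ha (y * c)
  have := key 1
  rwa [one_mul] at this

theorem barIdeal_ne_bot {I : Ideal R} (hI : I ≠ ⊥) : barIdeal I ≠ ⊥ := by
  obtain ⟨r, hr, hr0⟩ := Submodule.exists_mem_ne_zero_of_ne_bot hI
  intro h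
  have h1 := one_tmul_mem_barIdeal (I := I) hr
  rw [h, Ideal.mem_bot] at h1
  have h2 := retr_one_tmul r
  rw [h1, map_zero] at h2
  exact hr0 h2.symm

/-! ### The pole order -/

theorem mem_W_pole (𝒞 : MWDatum R) (a : R) : a ∈ 𝒞.W (pole 𝒞 a) :=
  Nat.sInf_mem (𝒞.W_exhaust a)

theorem pole_le (𝒞 : MWDatum R) {a : R} {m : ℕ} (h : a ∈ 𝒞.W m) : pole 𝒞 a ≤ m :=
  Nat.sInf_le h

theorem mem_W_iff (𝒞 : MWDatum R) {a : R} {m : ℕ} : a ∈ 𝒞.W m ↔ pole 𝒞 a ≤ m :=
  ⟨pole_le 𝒞, fun h => 𝒞.W_mono h (mem_W_pole 𝒞 a)⟩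

theorem pole_le_mul_of_pole_eq_zero (𝒞 : MWDatum R) {a b : R} (ha : a ≠ 0)
    (hpa : pole 𝒞 a = 0) : pole 𝒞 b ≤ pole 𝒞 (a * b) := by
  have h0 : a ∈ 𝒞.W 0 := by rw [mem_W_iff, hpa]
  rw [𝒞.W_zero, Submodule.mem_one] at h0
  obtain ⟨c, rfl⟩ := h0
  have hc : c ≠ 0 := by
    rintro rfl
    exact ha (map_zero _)
  apply pole_le
  have h1 := mem_W_pole 𝒞 (algebraMap ℚ R c * b)
  have h2 : b = c⁻¹ • (algebraMap ℚ R c * b) := by
    rw [← Algebra.smul_def, smul_smul, inv_mul_cancel₀ hc, one_smul]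
  rw [h2]
  exact (𝒞.W _).smul_mem _ (by rw [← h2]; exact h1)

/-- (B3) the pole order is a valuation. -/
theorem pole_mul (𝒞 : MWDatum R) (a b : R) (ha : a ≠ 0) (hb : b ≠ 0) :
    pole 𝒞 (a * b) = pole 𝒞 a + pole 𝒞 b := by
  apply le_antisymm
  · exact pole_le 𝒞 (𝒞.W_mul _ _ (Submodule.mul_mem_mul (mem_W_pole 𝒞 a) (mem_W_pole 𝒞 b)))
  · rcases Nat.eq_zero_or_pos (pole 𝒞 a) with hpa | hpa
    · rw [hpa, zero_add]
      exact pole_le_mul_of_pole_eq_zero 𝒞 ha hpa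
    rcases Nat.eq_zero_or_pos (pole 𝒞 b) with hpb | hpb
    · rw [hpb, add_zero, mul_comm]
      exact pole_le_mul_of_pole_eq_zero 𝒞 hb hpb
    by_contra hlt
    rw [not_le] at hlt
    have hna : a ∉ 𝒞.W (pole 𝒞 a - 1) := by
      rw [mem_W_iff]; omega
    have hnb : b ∉ 𝒞.W (pole 𝒞 b - 1) := by
      rw [mem_W_iff]; omega
    have h1 : (1 : QQbar) ⊗ₜ[ℚ] a ∉ (𝒞.W (pole 𝒞 a - 1)).baseChange QQbar := by
      rwa [one_tmul_mem_baseChange_iff]
    have h2 : (1 : QQbar) ⊗ₜ[ℚ] b ∉ (𝒞.W (pole 𝒞 b - 1)).baseChange QQbar := by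
      rwa [one_tmul_mem_baseChange_iff]
    have h3 := 𝒞.bar_val _ _ _ _ h1 h2
    rw [Algebra.TensorProduct.tmul_mul_tmul, mul_one, one_tmul_mem_baseChange_iff,
      mem_W_iff] at h3
    omega

/-! ### Riemann-Roch over `ℚ` -/

/-- the natural map `ℚ̄ ⊗ (R ⧸ I) → (ℚ̄ ⊗ R) ⧸ I (ℚ̄ ⊗ R)` -/
def barQuotMap (I : Ideal R) :
    QQbar ⊗[ℚ] (R ⧸ I) →ₗ[QQbar] ((QQbar ⊗[ℚ] R) ⧸ barIdeal I) :=
  LinearMap.liftBaseChange QQbar
    (Ideal.quotientMapₐ (barIdeal I) (Algebra.TensorProduct.includeRight : R →ₐ[ℚ] QQbar ⊗[ℚ] R)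
      (Ideal.le_comap_map)).toLinearMap

theorem barQuotMap_tmul_mk (I : Ideal R) (c : QQbar) (r : R) :
    barQuotMap I (c ⊗ₜ[ℚ] Ideal.Quotient.mk I r)
      = Ideal.Quotient.mk (barIdeal I) (c ⊗ₜ[ℚ] r) := by
  rw [barQuotMap, LinearMap.liftBaseChange_tmul]
  show c • Ideal.Quotient.mk (barIdeal I) ((1 : QQbar) ⊗ₜ[ℚ] r) = _
  rw [← Ideal.Quotient.mkₐ_eq_mk QQbar, ← map_smul, TensorProduct.smul_tmul', smul_eq_mul,
    mul_one]

theorem barQuotMap_surjective (I : Ideal R) : Function.Surjective (barQuotMap I) := by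
  intro z
  obtain ⟨y, rfl⟩ := Ideal.Quotient.mk_surjective z
  induction y using TensorProduct.induction_on with
  | zero => exact ⟨0, by simp⟩
  | tmul c r => exact ⟨c ⊗ₜ[ℚ] Ideal.Quotient.mk I r, barQuotMap_tmul_mk I c r⟩
  | add a b ha hb =>
    obtain ⟨x, hx⟩ := ha
    obtain ⟨y, hy⟩ := hb
    exact ⟨x + y, by rw [map_add, hx, hy, map_add]⟩

theorem finrank_barQuot_le (𝒞 : MWDatum R) (I : Ideal R) (hI : I ≠ ⊥) :
    finrank QQbar ((QQbar ⊗[ℚ] R) ⧸ barIdeal I) ≤ 𝒞.deg I := by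
  haveI := finite_quotient 𝒞 I hI
  have h := LinearMap.finrank_le_finrank_of_surjective (barQuotMap_surjective I)
  rw [Module.finrank_baseChange] at h
  exact h

end Fermat.Agent.H88.MW

end
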