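/-
P-MW / MW-BASIC (row 678, helper88), part 4: Riemann-Roch over `ℚ` (descended from `ℚ̄` by the
`ℚ`-linear retraction) and the degree of a principal ideal.
-/
import Fermat.Agent.H92.MW.BasicInterfaces
import Fermat.Agent.H88.MW.BasicBar

set_option autoImplicit false
set_option linter.unusedSectionVars false
set_option linter.style.haveILetI false

noncomputable section

open Module TensorProduct

namespace Fermat.Agent.H88.MW

open Fermat.Agent.H92.MW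

variable {R : Type} [CommRing R] [Algebra ℚ R] [IsDedekindDomain R]

/-- the reduction map `W m → R ⧸ I` -/
def redMap (𝒞 : MWDatum R) (m : ℕ) (I : Ideal R) : 𝒞.W m →ₗ[ℚ] R ⧸ I :=
  (Ideal.Quotient.mkₐ ℚ I).toLinearMap ∘ₗ (𝒞.W m).subtype

theorem redMap_apply (𝒞 : MWDatum R) (m : ℕ) (I : Ideal R) (w : 𝒞.W m) :
    redMap 𝒞 m I w = Ideal.Quotient.mk I (w : R) := rfl

theorem ker_redMap (𝒞 : MWDatum R) (m : ℕ) (I : Ideal R) :
    LinearMap.ker (redMap 𝒞 m I) = 𝒞.rrSpace m I := by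
  ext w
  rw [LinearMap.mem_ker, redMap_apply, Ideal.Quotient.eq_zero_iff_mem]
  rfl

/-- the reduction map over `ℚ̄` -/
def redMapBar (𝒞 : MWDatum R) (m : ℕ) (J : Ideal (QQbar ⊗[ℚ] R)) :
    ((𝒞.W m).baseChange QQbar) →ₗ[QQbar] (QQbar ⊗[ℚ] R) ⧸ J :=
  (Ideal.Quotient.mkₐ QQbar J).toLinearMap ∘ₗ ((𝒞.W m).baseChange QQbar).subtype

theorem redMapBar_apply (𝒞 : MWDatum R) (m : ℕ) (J : Ideal (QQbar ⊗[ℚ] R))
    (w : (𝒞.W m).baseChange QQbar) :
    redMapBar 𝒞 m J w = Ideal.Quotient.mk J (w : QQbar ⊗[ℚ] R) := rfl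

theorem ker_redMapBar (𝒞 : MWDatum R) (m : ℕ) (J : Ideal (QQbar ⊗[ℚ] R)) :
    LinearMap.ker (redMapBar 𝒞 m J) =
      Submodule.comap ((𝒞.W m).baseChange QQbar).subtype (J.restrictScalars QQbar) := by
  ext w
  rw [LinearMap.mem_ker, redMapBar_apply, Ideal.Quotient.eq_zero_iff_mem]
  rfl

theorem finrank_ker_redMapBar (𝒞 : MWDatum R) (m : ℕ) (J : Ideal (QQbar ⊗[ℚ] R)) :
    finrank QQbar (LinearMap.ker (redMapBar 𝒞 m J)) =
      finrank QQbar ↥((𝒞.W m).baseChange QQbar ⊓ J.restrictScalars QQbar) := by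
  rw [ker_redMapBar]
  have h : Submodule.comap ((𝒞.W m).baseChange QQbar).subtype (J.restrictScalars QQbar) =
      Submodule.comap ((𝒞.W m).baseChange QQbar).subtype
        ((𝒞.W m).baseChange QQbar ⊓ J.restrictScalars QQbar) := by
    rw [Submodule.comap_inf, Submodule.comap_subtype_self, top_inf_eq]
  rw [h]
  exact (Submodule.comapSubtypeEquivOfLe inf_le_left).finrank_eq

instance finite_Wbar (𝒞 : MWDatum R) (m : ℕ) : Module.Finite QQbar ((𝒞.W m).baseChange QQbar) :=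
  Module.Finite.equiv (Submodule.toBaseChange.toLinearEquiv QQbar (𝒞.W m))

theorem finrank_Wbar (𝒞 : MWDatum R) (m : ℕ) :
    finrank QQbar ((𝒞.W m).baseChange QQbar) = finrank ℚ (𝒞.W m) := by
  rw [← (Submodule.toBaseChange.toLinearEquiv QQbar (𝒞.W m)).finrank_eq,
    Module.finrank_baseChange]

/-- surjectivity of the reduction map over `ℚ̄` at high levels -/
theorem redMapBar_surjective (𝒞 : MWDatum R) (m : ℕ) (J : Ideal (QQbar ⊗[ℚ] R)) (hJ : J ≠ ⊥)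
    (hm : finrank QQbar ((QQbar ⊗[ℚ] R) ⧸ J) + 𝒞.m₀ ≤ m) :
    Function.Surjective (redMapBar 𝒞 m J) := by
  obtain ⟨hfin, hrr⟩ := 𝒞.bar_rr J hJ
  haveI := hfin
  have h1 := hrr m hm
  have h2 := LinearMap.finrank_range_add_finrank_ker (redMapBar 𝒞 m J)
  rw [finrank_ker_redMapBar, finrank_Wbar] at h2
  have h3 := 𝒞.W_finrank m (by omega)
  have h4 : finrank QQbar (LinearMap.range (redMapBar 𝒞 m J)) =
      finrank QQbar ((QQbar ⊗[ℚ] R) ⧸ J) := by omega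
  rw [← LinearMap.range_eq_top]
  exact Submodule.eq_top_of_finrank_eq h4

/-- surjectivity of the reduction map over `ℚ` at high levels -/
theorem redMap_surjective (𝒞 : MWDatum R) (m : ℕ) (I : Ideal R) (hI : I ≠ ⊥)
    (hm : 𝒞.deg I + 𝒞.m₀ ≤ m) : Function.Surjective (redMap 𝒞 m I) := by
  have hd := finrank_barQuot_le 𝒞 I hI
  have hs := redMapBar_surjective 𝒞 m (barIdeal I) (barIdeal_ne_bot hI) (by omega)
  intro z
  obtain ⟨r, rfl⟩ := Ideal.Quotient.mk_surjective z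
  obtain ⟨w, hw⟩ := hs (Ideal.Quotient.mk (barIdeal I) ((1 : QQbar) ⊗ₜ[ℚ] r))
  rw [redMapBar_apply, Ideal.Quotient.eq] at hw
  have h1 := retr_mem_of_mem_barIdeal I hw
  rw [map_sub, retr_one_tmul] at h1
  have h2 : retr R (w : QQbar ⊗[ℚ] R) ∈ 𝒞.W m := retr_mem_of_mem_baseChange (𝒞.W m) w.2
  refine ⟨⟨retr R (w : QQbar ⊗[ℚ] R), h2⟩, ?_⟩
  rw [redMap_apply, Ideal.Quotient.eq]
  exact h1

/-- (B2) Riemann-Roch over `ℚ`. -/
theorem rr_rat (𝒞 : MWDatum R) (I : Ideal R) (m : ℕ) (hI : I ≠ ⊥)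
    (hm : 𝒞.deg I + 𝒞.m₀ ≤ m) :
    finrank ℚ (𝒞.rrSpace m I) + 𝒞.deg I + 𝒞.g = m + 1 := by
  haveI := finite_quotient 𝒞 I hI
  have h1 := LinearMap.finrank_range_add_finrank_ker (redMap 𝒞 m I)
  rw [ker_redMap, LinearMap.range_eq_top.mpr (redMap_surjective 𝒞 m I hI hm),
    finrank_top] at h1
  have h2 := 𝒞.W_finrank m (by omega)
  have h3 : finrank ℚ (R ⧸ I) = 𝒞.deg I := rfl
  omega

/-! ### The degree of a principal ideal -/

theorem mulMap_injective (𝒞 : MWDatum R) (k n : ℕ) (a : 𝒞.W k) (ha : (a : R) ≠ 0) :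
    Function.Injective (mulMap 𝒞 k n a) := by
  rw [← LinearMap.ker_eq_bot, LinearMap.ker_eq_bot']
  intro w hw
  have h1 : ((mulMap 𝒞 k n a w : 𝒞.W (n + k)) : R) = 0 := by rw [hw]; rfl
  have h2 : (w : R) * (a : R) = 0 := h1
  rcases mul_eq_zero.mp h2 with h | h
  · exact Subtype.ext h
  · exact absurd h ha

theorem range_mulMap (𝒞 : MWDatum R) (n : ℕ) (a : R) (ha : a ≠ 0) :
    LinearMap.range (mulMap 𝒞 (pole 𝒞 a) n ⟨a, mem_W_pole 𝒞 a⟩) =
      𝒞.rrSpace (n + pole 𝒞 a) (Ideal.span {a}) := by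
  ext x
  constructor
  · rintro ⟨w, rfl⟩
    show (w : R) * a ∈ Ideal.span {a}
    exact Ideal.mem_span_singleton'.mpr ⟨w, rfl⟩
  · intro hx
    have hx' : (x : R) ∈ Ideal.span {a} := hx
    obtain ⟨y, hy⟩ := Ideal.mem_span_singleton'.mp hx'
    have hyW : y ∈ 𝒞.W n := by
      by_cases hy0 : y = 0
      · rw [hy0]; exact zero_mem _
      · rw [mem_W_iff]
        have h1 : pole 𝒞 (y * a) ≤ n + pole 𝒞 a := by
          rw [hy]; exact pole_le 𝒞 x.2
        rw [pole_mul 𝒞 y a hy0 ha] at h1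
        omega
    exact ⟨⟨y, hyW⟩, Subtype.ext hy⟩

/-- (B4) the degree of a principal ideal is the pole order of its generator. -/
theorem deg_span (𝒞 : MWDatum R) (a : R) (ha : a ≠ 0) :
    𝒞.deg (Ideal.span {a}) = pole 𝒞 a := by
  have hI : Ideal.span {a} ≠ (⊥ : Ideal R) := by
    rw [Ne, Ideal.span_singleton_eq_bot]; exact ha
  have h1 := rr_rat 𝒞 (Ideal.span {a}) (𝒞.deg (Ideal.span {a}) + 𝒞.m₀ + pole 𝒞 a) hI (by omega)
  rw [← range_mulMap 𝒞 _ a ha,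
    LinearMap.finrank_range_of_inj (mulMap_injective 𝒞 _ _ ⟨a, mem_W_pole 𝒞 a⟩ ha)] at h1
  have h2 := 𝒞.W_finrank (𝒞.deg (Ideal.span {a}) + 𝒞.m₀) (by omega)
  omega

end Fermat.Agent.H88.MW

end
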