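/-
P-MW / MW-BASIC (row 678, helper88): `BasicStatement 𝒞` holds for every datum `𝒞 : MWDatum R`.
-/
import Fermat.Agent.H92.MW.BasicInterfaces
import Fermat.Agent.H88.MW.BasicAlg
import Fermat.Agent.H88.MW.BasicBar
import Fermat.Agent.H88.MW.BasicRR

set_option autoImplicit false

noncomputable section

open Module TensorProduct

namespace Fermat.Agent.H88.MW

open Fermat.Agent.H92.MW

variable {R : Type} [CommRing R] [Algebra ℚ R] [IsDedekindDomain R]

/-- **MW-BASIC.**  The basic consequences of the datum: finiteness of `R ⧸ I`, Riemann-Roch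
over `ℚ`, the pole order is a valuation, the degree of a principal ideal, additivity of the
degree and multiplicativity of `tCharpoly`. -/
theorem basic (𝒞 : MWDatum R) : BasicStatement 𝒞 :=
  ⟨finite_quotient 𝒞, rr_rat 𝒞, pole_mul 𝒞, deg_span 𝒞, deg_mul 𝒞, tCharpoly_mul 𝒞⟩

end Fermat.Agent.H88.MW

end
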